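import Fermat.Agent.TW.Tame
import Fermat.Agent.LocalP.Minkowski
import Fermat.Agent.GalRep.Construct.Cyclotomic

/-!
# Finite images of order prime to `p` of the inertia group at `p`, and abelian images
-/

set_option autoImplicit false

open scoped Pointwise

noncomputable section

namespace FermatAgent.RTLift.Finish.Image

open FermatAgent.TW FermatAgent.RT FermatAgent.Local

local notation "Qb" => AlgebraicClosure ℚ
local notation "GQ" => AlgebraicClosure ℚ ≃ₐ[ℚ] AlgebraicClosure ℚ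

attribute [local instance] FermatAgent.RT.isGalois_algClosureRat

variable {p : ℕ} [hp : Fact p.Prime] {A : ValuationSubring Qb}

/-- A finite level can be taken normal. -/
theorem exists_normal_level {M : Type} [MulOneClass M] {f : GQ →* M}
    (hf : GaloisFactorsThroughFiniteLevel f) :
    ∃ L : IntermediateField ℚ Qb, FiniteDimensional ℚ L ∧ Normal ℚ L ∧
      ∀ σ : GQ, (∀ x ∈ L, σ x = x) → f σ = 1 := by
  obtain ⟨L, hfin, hL⟩ := hf
  have : Normal ℚ Qb := IsGalois.to_normal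
  exact ⟨IntermediateField.normalClosure ℚ L Qb, normalClosure.is_finiteDimensional ℚ _ Qb,
    normalClosure.normal ℚ _ Qb,
    fun σ hσ => hL σ fun x hx => hσ x (IntermediateField.le_normalClosure L hx)⟩

/-- On inertia a tame homomorphism is detected by the tame character of a uniformiser. -/
theorem map_eq_one_of_tame {M : Type} [Group M] (hA : A.LiesOverPrime p)
    (L : IntermediateField ℚ Qb) [FiniteDimensional ℚ L] [Normal ℚ L]
    (f : A.inertiaSubgroupIn ℚ →* M)
    (hL : ∀ σ : A.inertiaSubgroupIn ℚ, (∀ x ∈ L, (σ : GQ) x = x) → f σ = 1)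
    (hord : ∀ σ, ¬ p ∣ orderOf (f σ))
    {π : Qb} (hπ0 : π ≠ 0) (hπ : ∀ x ∈ L, x ≠ 0 → ∃ k : ℤ, A.valuation x = A.valuation π ^ k)
    (σ : A.inertiaSubgroupIn ℚ) (h : tameHom A hπ0 σ = 1) : f σ = 1 := by
  obtain ⟨a, ha⟩ := exists_pow_fix_of_tame hp.out hA L σ.2 (fun x hxL hx0 => by
    obtain ⟨k, hk⟩ := hπ x hxL hx0
    have hd := mem_decomposition_of_inertia σ.2
    have hπk : π ^ k ≠ 0 := zpow_ne_zero _ hπ0
    have h1 : tameVal A x σ = 1 := by
      rw [tameVal_eq_of_val_eq hπk (by rw [hk, map_zpow₀]) σ.2]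
      have hmem : (σ : GQ) π / π ∈ A := ratio_mem hd hπ0
      have h' : IsLocalRing.residue A ⟨_, hmem⟩ = 1 := by
        rw [← tameVal_eq hmem]; exact congrArg Units.val h
      obtain ⟨u, hu⟩ : IsUnit (⟨_, hmem⟩ : A) := by
        rw [← IsLocalRing.residue_ne_zero_iff_isUnit, h']; exact one_ne_zero
      have hu1 : Units.map (IsLocalRing.residue A : A →* _) u = 1 := Units.ext (by
        show IsLocalRing.residue A (u : A) = 1
        rw [hu, h'])
      have hval : (σ : GQ) (π ^ k) / π ^ k = (((u ^ k : Aˣ) : A) : Qb) := by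
        show _ = ((Units.map (A.subtype : A →* Qb) (u ^ k) : Qbˣ) : Qb)
        rw [map_zpow, Units.val_zpow_eq_zpow_val]
        show _ = (A.subtype (u : A)) ^ k
        rw [show A.subtype (u : A) = (σ : GQ) π / π from congrArg Subtype.val hu, map_zpow₀,
          div_zpow]
      rw [tameVal_eq (ratio_mem hd hπk),
        show (⟨_, ratio_mem hd hπk⟩ : A) = ((u ^ k : Aˣ) : A) from Subtype.ext hval]
      show ((Units.map (IsLocalRing.residue A : A →* _) (u ^ k) :
        (IsLocalRing.ResidueField A)ˣ) : IsLocalRing.ResidueField A) = 1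
      rw [map_zpow, hu1, _root_.one_zpow, Units.val_one]
    rw [tameVal_eq (ratio_mem hd hx0), ← map_one (IsLocalRing.residue A), residue_eq_iff] at h1
    have : (σ : GQ) x - x = x * ((σ : GQ) x / x - 1) := by field_simp
    rw [this, map_mul]
    exact mul_lt_of_lt_one_right (A.valuation.pos_iff.2 hx0) h1)
  have h1 : f σ ^ p ^ a = 1 := by
    rw [← map_pow]
    exact hL _ fun x hx => by rw [SubgroupClass.coe_pow]; exact ha x hx
  obtain ⟨i, -, hi⟩ := (Nat.dvd_prime_pow hp.out).1 (orderOf_dvd_of_pow_eq_one h1)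
  rcases Nat.eq_zero_or_pos i with rfl | hpos
  · exact orderOf_eq_one_iff.1 (by rw [hi, pow_zero])
  · exact absurd (hi ▸ dvd_pow_self p hpos.ne') (hord σ)

/-- The image of inertia at `p` is cyclic; in an abelian target its exponent divides `p - 1`. -/
theorem tame_image {M : Type} [Group M] (f : GQ →* M) (hf : GaloisFactorsThroughFiniteLevel f)
    (hord : ∀ σ, ¬ p ∣ orderOf (f σ)) (hA : A.LiesOverPrime p) :
    (∃ τ ∈ A.inertiaSubgroupIn ℚ, ∀ σ ∈ A.inertiaSubgroupIn ℚ,
      f σ ∈ Subgroup.zpowers (f τ)) ∧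
    ((∀ a b : M, a * b = b * a) → ∀ σ ∈ A.inertiaSubgroupIn ℚ, f σ ^ (p - 1) = 1) := by
  classical
  obtain ⟨L, hLfin, hLnorm, hL⟩ := exists_normal_level hf
  obtain ⟨π, hπL, hπ0, -, hπ⟩ := exists_uniformiser hp.out hA L
  set fI := f.comp (A.inertiaSubgroupIn ℚ).subtype with hfI
  have hker : ∀ σ, tameHom A hπ0 σ = 1 → fI σ = 1 := fun σ h =>
    map_eq_one_of_tame hA L fI (fun σ hσ => hL _ hσ) (fun σ => hord _) hπ0 hπ σ h
  refine ⟨?_, fun hcomm σ hσ => ?_⟩
  · have hfin : (Set.range (tameHom A hπ0)).Finite := by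
      have : Finite (L ≃ₐ[ℚ] L) := inferInstance
      refine ((Set.finite_range fun g : L ≃ₐ[ℚ] L => (g ⟨π, hπL⟩ : Qb) / π).image
        (fun z : Qb => if h : z ∈ A then IsLocalRing.residue A ⟨z, h⟩ else 0)).preimage
        (Units.val_injective.injOn) |>.subset ?_
      rintro _ ⟨σ, rfl⟩
      refine ⟨_, ⟨AlgEquiv.restrictNormalHom L (σ : GQ), rfl⟩, ?_⟩
      show (if h : _ then _ else _) = tameVal A π σ
      simp only [show ((AlgEquiv.restrictNormalHom L (σ : GQ)) ⟨π, hπL⟩ : Qb) = (σ : GQ) π from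
        AlgEquiv.restrictNormal_commutes (σ : GQ) L ⟨π, hπL⟩]
      rfl
    have : Finite (tameHom A hπ0).range := hfin.to_subtype
    obtain ⟨⟨_, τ, rfl⟩, hτ⟩ := IsCyclic.exists_generator (α := (tameHom A hπ0).range)
    refine ⟨τ, τ.2, fun σ hσ => ?_⟩
    obtain ⟨k, hk⟩ := Subgroup.mem_zpowers_iff.1 (hτ ⟨_, ⟨σ, hσ⟩, rfl⟩)
    have hk' : tameHom A hπ0 τ ^ k = tameHom A hπ0 ⟨σ, hσ⟩ := congrArg Subtype.val hk
    refine Subgroup.mem_zpowers_iff.2 ⟨k, ?_⟩
    have := hker (τ ^ k * (⟨σ, hσ⟩ : A.inertiaSubgroupIn ℚ)⁻¹)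
      (by rw [map_mul, map_zpow, hk', map_inv, mul_inv_cancel])
    rwa [map_mul, map_zpow, map_inv, mul_inv_eq_one] at this
  · obtain ⟨F, hF⟩ := exists_isFrobeniusAt hp.out hA
    have hFd := (isFrobeniusAt_iff.1 hF).1
    have hFA : F • A = A := MulAction.mem_stabilizer_iff.1 hFd
    have hσ'I : F * σ * F⁻¹ ∈ A.inertiaSubgroupIn ℚ := hFA ▸ conj_mem_inertia hσ
    set σ₁ : A.inertiaSubgroupIn ℚ := ⟨σ, hσ⟩ with hσ₁
    set σ' : A.inertiaSubgroupIn ℚ := ⟨_, hσ'I⟩ with hσ'
    have hσ'd := mem_decomposition_of_inertia hσ'I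
    have hσd := mem_decomposition_of_inertia hσ
    set y := F⁻¹ π with hy
    have hy0 : y ≠ 0 := by simpa [hy] using hπ0
    have hFy : F y = π := by rw [hy, ← AlgEquiv.mul_apply, mul_inv_cancel, AlgEquiv.one_apply]
    have hyv : A.valuation y = A.valuation π := by rw [← val_galois_eq hFd y, hFy]
    have key : tameHom A hπ0 σ' = tameHom A hπ0 σ₁ ^ p := by
      refine Units.ext ?_
      rw [Units.val_pow_eq_pow_val]
      show tameVal A π (F * σ * F⁻¹) = tameVal A π σ ^ p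
      rw [← tameVal_eq_of_val_eq hπ0 hyv hσ, tameVal_eq (ratio_mem hσ'd hπ0),
        tameVal_eq (ratio_mem hσd hy0), ← map_pow, residue_eq_iff]
      show A.valuation ((F * σ * F⁻¹) π / π - (σ y / y) ^ p) < 1
      have : (F * σ * F⁻¹) π / π = F (σ y / y) := by
        rw [map_div₀, hFy]
        rfl
      rw [this]
      exact (isFrobeniusAt_iff.1 hF).2 _ (ratio_mem hσd hy0)
    have := hker (σ' * (σ₁ ^ p)⁻¹) (by rw [map_mul, map_inv, map_pow, key, mul_inv_cancel])
    rw [map_mul, map_inv, map_pow, mul_inv_eq_one] at this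
    have hc : fI σ' = f σ := by
      show f (F * σ * F⁻¹) = f σ
      rw [map_mul, map_mul, hcomm (f F), mul_assoc, ← map_mul, mul_inv_cancel, map_one, mul_one]
    have h2 : f σ = f σ ^ p := hc.symm.trans this
    rw [← Nat.sub_add_cancel hp.out.one_lt.le, pow_succ] at h2
    exact mul_eq_right.1 h2.symm

/-- An abelian image unramified outside `p` is the image of inertia at `p`. -/
theorem exists_inertia_map_eq {M : Type} [CommGroup M] (f : GQ →* M)
    (hf : GaloisFactorsThroughFiniteLevel f)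
    (hunr : ∀ q : ℕ, q.Prime → q ≠ p → ∀ B : ValuationSubring Qb, B.LiesOverPrime q →
      ∀ σ ∈ B.inertiaSubgroupIn ℚ, f σ = 1)
    (hA : A.LiesOverPrime p) (σ : GQ) : ∃ i ∈ A.inertiaSubgroupIn ℚ, f i = f σ := by
  set J := (A.inertiaSubgroupIn ℚ).map f with hJ
  have h1 : (QuotientGroup.mk' J).comp f = 1 := by
    obtain ⟨L, hfin, hL⟩ := hf
    refine LocalP.eq_one_of_unramified _ ⟨L, hfin, fun τ hτ => by
      rw [MonoidHom.comp_apply, hL τ hτ, map_one]⟩ fun q hq B hB τ hτ => ?_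
    rw [MonoidHom.comp_apply, ← MonoidHom.mem_ker, QuotientGroup.ker_mk']
    rcases eq_or_ne q p with rfl | hne
    · obtain ⟨g, rfl⟩ := exists_smul_eq hq hB hA
      refine ⟨g * τ * g⁻¹, conj_mem_inertia hτ, ?_⟩
      rw [map_mul, map_mul, mul_comm (f g), mul_assoc, ← map_mul, mul_inv_cancel, map_one, mul_one]
    · rw [hunr q hq hne B hB τ hτ]; exact one_mem _
  have := DFunLike.congr_fun h1 σ
  rw [MonoidHom.comp_apply, MonoidHom.one_apply, ← MonoidHom.mem_ker, QuotientGroup.ker_mk'] at this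
  obtain ⟨i, hi, he⟩ := this
  exact ⟨i, hi, he⟩

variable (p)

/-- The cyclotomic character modulo `p`. -/
def omegaBar : GQ →* (ZMod p)ˣ :=
  (Units.map (PadicInt.toZMod (p := p)).toMonoidHom).comp (GalRep.cycChar p).toHomUnits

theorem val_omegaBar (σ : GQ) :
    ((omegaBar p σ : (ZMod p)ˣ) : ZMod p) = PadicInt.toZMod (GalRep.cycChar p σ) := rfl

theorem omegaBar_inertia {q : ℕ} (hq : q.Prime) (hqp : q ≠ p) {B : ValuationSubring Qb}
    (hB : B.LiesOverPrime q) {σ : GQ} (hσ : σ ∈ B.inertiaSubgroupIn ℚ) : omegaBar p σ = 1 :=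
  Units.ext (by
    rw [val_omegaBar, GalRep.cycChar_inertia p hq hqp hB hσ, map_one, Units.val_one])

theorem omegaBar_eq_of_apply {σ : GQ} {ζ : Qb} (hζ : IsPrimitiveRoot ζ p) {a : ℕ}
    (h : σ ζ = ζ ^ a) : ((omegaBar p σ : (ZMod p)ˣ) : ZMod p) = a := by
  obtain ⟨x, hx⟩ := GalRep.pow_dvd_cycChar_sub p (σ := σ) (n := 1) (a := a) fun z hz => by
    rw [pow_one] at hz
    obtain ⟨i, -, rfl⟩ := hζ.eq_pow_of_pow_eq_one hz
    rw [map_pow, h, ← pow_mul, ← pow_mul, mul_comm]
  rw [val_omegaBar, eq_add_of_sub_eq hx, map_add, map_mul, map_pow, map_natCast, map_natCast,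
    ZMod.natCast_self, pow_one, zero_mul, zero_add]

theorem omegaBar_finiteLevel : GaloisFactorsThroughFiniteLevel (omegaBar p) := by
  obtain ⟨L, hfin, hL⟩ := GalRep.exists_level_cycChar p 1
  refine ⟨L, hfin, fun σ hσ => Units.ext ?_⟩
  obtain ⟨x, hx⟩ := hL σ hσ
  rw [val_omegaBar, eq_add_of_sub_eq hx, map_add, map_mul, map_pow, map_natCast, ZMod.natCast_self,
    pow_one, zero_mul, zero_add, map_one, Units.val_one]

/-- The character takes every value. -/
theorem omegaBar_surjective : Function.Surjective (omegaBar p) := by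
  intro u
  have : NeZero p := ⟨hp.out.ne_zero⟩
  obtain ⟨ζ, hζ⟩ := HasEnoughRootsOfUnity.exists_primitiveRoot Qb p
  have hirr := Polynomial.cyclotomic.irreducible_rat hp.out.pos
  have hco : (u : ZMod p).val.Coprime p := ZMod.val_coe_unit_coprime u
  have h1 := hζ.isRoot_cyclotomic hp.out.pos
  have h2 := (hζ.pow_of_coprime _ hco).isRoot_cyclotomic hp.out.pos
  have e : minpoly ℚ ζ = minpoly ℚ (ζ ^ (u : ZMod p).val) := by
    rw [← Polynomial.cyclotomic_eq_minpoly_rat hζ hp.out.pos,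
      ← Polynomial.cyclotomic_eq_minpoly_rat (hζ.pow_of_coprime _ hco) hp.out.pos]
  obtain ⟨σ, hσ⟩ := Normal.minpoly_eq_iff_mem_orbit (E := Qb) |>.1 e
  refine ⟨σ⁻¹, Units.ext ?_⟩
  change σ (ζ ^ (u : ZMod p).val) = ζ at hσ
  rw [omegaBar_eq_of_apply p hζ (a := (u : ZMod p).val) ?_, ZMod.natCast_zmod_val]
  conv_lhs => rw [← hσ]
  rw [← AlgEquiv.mul_apply, inv_mul_cancel, AlgEquiv.one_apply]

/-- The character is onto already on inertia at `p`. -/
theorem omegaBar_inertia_surjective (hA : A.LiesOverPrime p) (u : (ZMod p)ˣ) :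
    ∃ i ∈ A.inertiaSubgroupIn ℚ, omegaBar p i = u := by
  obtain ⟨σ, rfl⟩ := omegaBar_surjective p u
  exact exists_inertia_map_eq (omegaBar p) (omegaBar_finiteLevel p)
    (fun q hq hqp B hB τ hτ => omegaBar_inertia p hq hqp hB hτ) hA σ

end FermatAgent.RTLift.Finish.Image
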