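import Fermat.Agent.RTLift.Finish.Image.Tame

/-!
# No extension of degree three of `ℚ(ζ₅)` which is unramified everywhere and Galois over `ℚ`

Stated for homomorphisms of `G_ℚ` with image of order twelve.
-/

set_option autoImplicit false

open NumberField IntermediateField
open scoped Pointwise

noncomputable section

namespace FermatAgent.RTLift.Finish.Image

local notation "Qb" => AlgebraicClosure ℚ
local notation "GQ" => AlgebraicClosure ℚ ≃ₐ[ℚ] AlgebraicClosure ℚ

attribute [local instance] FermatAgent.RT.isGalois_algClosureRat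

/-- With trivial inertia groups the different is trivial. -/
theorem differentIdeal_eq_top {K L : Type} [Field K] [NumberField K] [Field L] [NumberField L]
    [Algebra K L] [IsGalois K L]
    (h : ∀ P : Ideal (𝓞 L), P.IsPrime → P ≠ ⊥ → ∀ g : L ≃ₐ[K] L,
      g ∈ P.inertia (L ≃ₐ[K] L) → g = 1) :
    differentIdeal (𝓞 K) (𝓞 L) = ⊤ := by
  by_contra hne
  obtain ⟨P, hP, hle⟩ := Ideal.exists_le_maximal _ hne
  have hP0 : P ≠ ⊥ := Ring.ne_bot_of_isMaximal_of_not_isField hP (RingOfIntegers.not_isField L)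
  refine not_dvd_differentIdeal_iff.2 ?_ (Ideal.dvd_iff_le.2 hle)
  have hp0 : P.under (𝓞 K) ≠ ⊥ := mt Ideal.eq_bot_of_comap_eq_bot hP0
  have : (P.under (𝓞 K)).IsMaximal := Ideal.IsMaximal.under (𝓞 K) P
  have : Finite ((𝓞 K) ⧸ P.under (𝓞 K)) := Ideal.finiteQuotientOfFreeOfNeBot _ hp0
  have : Finite ((P.under (𝓞 K)).ResidueField) :=
    Finite.of_surjective _ (Ideal.bijective_algebraMap_quotient_residueField _).2
  rw [← Ideal.ramificationIdx_eq_one_iff]
  have hcard := Ideal.card_inertia_eq_ramificationIdxIn (G := L ≃ₐ[K] L) (P.under (𝓞 K)) P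
  rw [Ideal.ramificationIdxIn_eq_ramificationIdx (P.under (𝓞 K)) P (L ≃ₐ[K] L)] at hcard
  rw [← hcard, Nat.card_eq_one_iff_unique]
  exact ⟨⟨fun a b => Subtype.ext ((h P hP.isPrime hP0 a a.2).trans (h P hP.isPrime hP0 b b.2).symm)⟩,
    ⟨1⟩⟩

theorem minkowski_twelve {L : Type} [Field L] [NumberField L] (h : Module.finrank ℚ L = 12) :
    (2000000 : ℝ) < |discr L| := by
  refine lt_of_lt_of_le ?_ (abs_discr_ge' L)
  have h2 : 2 * InfinitePlace.nrComplexPlaces L ≤ 12 := by
    rw [← h, ← InfinitePlace.card_add_two_mul_card_eq_rank L]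
    exact Nat.le_add_left _ _
  have hb : (4 / Real.pi) ^ (2 * InfinitePlace.nrComplexPlaces L) ≤ (4 / 3 : ℝ) ^ 12 :=
    calc (4 / Real.pi) ^ (2 * InfinitePlace.nrComplexPlaces L)
        ≤ (4 / Real.pi) ^ 12 :=
          pow_le_pow_right₀ ((one_le_div Real.pi_pos).2 Real.pi_le_four) h2
      _ ≤ (4 / 3 : ℝ) ^ 12 := by gcongr; exact Real.pi_gt_three.le
  rw [h, lt_div_iff₀ (by positivity)]
  push_cast [Nat.factorial]
  calc (2000000 : ℝ) * ((4 / Real.pi) ^ (2 * InfinitePlace.nrComplexPlaces L) * _)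
      ≤ 2000000 * ((4 / 3 : ℝ) ^ 12 * _) := by gcongr
    _ < _ := by norm_num

/-- A finite image of order twelve which is unramified outside `5`, lies over the mod `5`
cyclotomic character and has inertia at `5` detected by it, does not exist. -/
theorem false_of_card_twelve [Fact (Nat.Prime 5)] {M : Type} [Group M] (f : GQ →* M)
    (hf : GaloisFactorsThroughFiniteLevel f) (hcard : Nat.card f.range = 12)
    (hω : ∀ σ, f σ = 1 → omegaBar 5 σ = 1)
    (hunr : ∀ q : ℕ, q.Prime → q ≠ 5 → ∀ B : ValuationSubring Qb, B.LiesOverPrime q →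
      ∀ σ ∈ B.inertiaSubgroupIn ℚ, f σ = 1)
    (hI : ∀ B : ValuationSubring Qb, B.LiesOverPrime 5 →
      ∀ σ ∈ B.inertiaSubgroupIn ℚ, omegaBar 5 σ = 1 → f σ = 1) : False := by
  classical
  obtain ⟨E, hE, hEker⟩ := hf
  have hle : E.fixingSubgroup ≤ f.ker := fun σ hσ =>
    hEker σ ((IntermediateField.mem_fixingSubgroup_iff E σ).1 hσ)
  have hopen : IsOpen (f.ker : Set GQ) :=
    Subgroup.isOpen_mono hle (IntermediateField.fixingSubgroup_isOpen E)
  let Hc : ClosedSubgroup GQ := ⟨f.ker, Subgroup.isClosed_of_isOpen _ hopen⟩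
  have hfix : (IntermediateField.fixedField f.ker).fixingSubgroup = f.ker :=
    InfiniteGalois.fixingSubgroup_fixedField Hc
  set L := IntermediateField.fixedField f.ker with hL
  have hLE : L ≤ E := by
    rw [← InfiniteGalois.fixedField_fixingSubgroup E, IntermediateField.le_iff_le, hfix]
    exact hle
  have : FiniteDimensional ℚ L :=
    FiniteDimensional.of_injective (IntermediateField.inclusion hLE).toLinearMap
      (IntermediateField.inclusion hLE).injective
  have hnorm : L.fixingSubgroup.Normal := by rw [hfix]; infer_instance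
  have : IsGalois ℚ L := (InfiniteGalois.normal_iff_isGalois L).mp hnorm
  have : NumberField L := ⟨⟩
  have hkerL : ∀ σ : GQ, f σ = 1 ↔ ∀ x ∈ L, σ x = x := fun σ => by
    rw [← MonoidHom.mem_ker, ← hfix, IntermediateField.mem_fixingSubgroup_iff]
  have hdeg : Module.finrank ℚ L = 12 := by
    rw [← hcard, ← Subgroup.index_ker, ← hfix,
      ← IntermediateField.restrictNormalHom_ker,
      Subgroup.index_ker, MonoidHom.range_eq_top.2 (AlgEquiv.restrictNormalHom_surjective Qb),
      Subgroup.card_top, IsGalois.card_aut_eq_finrank]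
  obtain ⟨ζ, hζ⟩ := HasEnoughRootsOfUnity.exists_primitiveRoot Qb 5
  let K : IntermediateField ℚ Qb := adjoin ℚ {ζ}
  have : IsCyclotomicExtension {5} ℚ K :=
    hζ.intermediateField_adjoin_isCyclotomicExtension (K := ℚ)
  have : FiniteDimensional ℚ K := IsCyclotomicExtension.finiteDimensional {5} ℚ K
  have : NumberField K := ⟨⟩
  have hωζ : ∀ σ : GQ, omegaBar 5 σ = 1 → σ ζ = ζ := fun σ h => by
    obtain ⟨i, -, hi⟩ := hζ.eq_pow_of_pow_eq_one
      (show (σ ζ) ^ 5 = 1 by rw [← map_pow, hζ.pow_eq_one, map_one])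
    have h' := omegaBar_eq_of_apply 5 hζ hi.symm
    rw [h, Units.val_one] at h'
    have hmod : (1 : ℕ) % 5 = i % 5 :=
      (ZMod.natCast_eq_natCast_iff' 1 i 5).1 (by rw [Nat.cast_one]; exact h')
    rw [← hi, ← Nat.mod_add_div i 5, ← hmod, pow_add, pow_mul, hζ.pow_eq_one, one_pow, mul_one]
    norm_num
  have hζω : ∀ σ : GQ, σ ζ = ζ → omegaBar 5 σ = 1 := fun σ h => Units.ext (by
    rw [omegaBar_eq_of_apply 5 hζ (a := 1) (by rw [h, pow_one]), Nat.cast_one, Units.val_one])
  have hKL : K ≤ L := by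
    rw [adjoin_simple_le_iff, IntermediateField.mem_fixedField_iff]
    exact fun σ hσ => hωζ σ (hω σ (MonoidHom.mem_ker.1 hσ))
  let : Algebra K L := (IntermediateField.inclusion hKL).toRingHom.toAlgebra
  have : IsScalarTower ℚ K L := IsScalarTower.of_algebraMap_eq fun _ => rfl
  have : IsGalois K L := IsGalois.tower_top_of_isGalois ℚ K L
  have hdiff : differentIdeal (𝓞 K) (𝓞 L) = ⊤ := by
    refine differentIdeal_eq_top fun P hP hP0 g hg => ?_
    obtain ⟨q, hq, hqP⟩ : ∃ q : ℕ, q.Prime ∧ (q : 𝓞 L) ∈ P := by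
      have hu : P.under ℤ ≠ ⊥ := mt Ideal.eq_bot_of_comap_eq_bot hP0
      have : (P.under ℤ).IsPrime := inferInstance
      obtain ⟨n, hn⟩ := IsPrincipalIdealRing.principal (P.under ℤ)
      have hn' : P.under ℤ = Ideal.span {n} := hn
      have hn0 : n ≠ 0 := fun h0 => hu (by rw [hn', h0, Ideal.span_singleton_eq_bot.2 rfl])
      have hnp : Prime n := (Ideal.span_singleton_prime hn0).1 (hn' ▸ inferInstance)
      refine ⟨n.natAbs, Int.prime_iff_natAbs_prime.1 hnp, ?_⟩
      have : (n.natAbs : ℤ) ∈ P.under ℤ := by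
        rw [hn', Ideal.mem_span_singleton]; exact Int.dvd_natAbs.2 dvd_rfl
      rwa [Ideal.mem_comap, map_natCast] at this
    obtain ⟨A, hA, t, ht, hti⟩ :=
      ExtVanish.exists_inertia_lift L.val P hP0 hq hqP (g.restrictScalars ℚ) (fun x => hg x)
    have hft : f t = 1 := by
      rcases eq_or_ne q 5 with rfl | hne
      · refine hI A hA t ht (hζω t ?_)
        have hg' := g.commutes ⟨ζ, mem_adjoin_simple_self ℚ ζ⟩
        exact (hti (IntermediateField.inclusion hKL ⟨ζ, mem_adjoin_simple_self ℚ ζ⟩)).trans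
          (congrArg L.val hg')
      · exact hunr q hq hne A hA t ht
    refine AlgEquiv.ext fun x => Subtype.ext ?_
    exact (hti x).symm.trans ((hkerL t).1 hft x x.2)
  have hdL := NumberField.natAbs_discr_eq_absNorm_differentIdeal_mul_natAbs_discr_pow
    K (𝓞 K) L (𝓞 L)
  rw [hdiff, Ideal.absNorm_top, one_mul, IsCyclotomicExtension.Rat.discr_prime 5 K] at hdL
  have hKdeg : Module.finrank K L = 3 := by
    have h1 := Module.finrank_mul_finrank ℚ K L
    rw [hdeg, IsCyclotomicExtension.finrank K (Polynomial.cyclotomic.irreducible_rat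
      (by norm_num : 0 < 5)), Nat.totient_prime (by norm_num : Nat.Prime 5)] at h1
    omega
  rw [hKdeg] at hdL
  norm_num [Int.natAbs_mul, Int.natAbs_pow] at hdL
  have h12 := minkowski_twelve hdeg
  rw [Int.abs_eq_natAbs, hdL] at h12
  norm_num at h12

end FermatAgent.RTLift.Finish.Image
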