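import Fermat.Agent.RTLift.Finish.Image.GroupCases
import Fermat.Agent.RTLift.Finish.Image.Discr
import Fermat.Agent.RTLift.Finish.Interface
import Fermat.Agent.Conductor.Compare

/-!
# The image of Galois on `E[p]` for a semistable curve, `p = 3, 5`

An irreducible `E[p]` has image all of `GL₂(𝔽_p)`.
-/

set_option autoImplicit false

open Polynomial WeierstrassCurve

noncomputable section

namespace FermatAgent.RTLift.Finish.Image

open FermatAgent.RT FermatAgent.GalRep

local notation "Qb" => AlgebraicClosure ℚ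
local notation "GQ" => AlgebraicClosure ℚ ≃ₐ[ℚ] AlgebraicClosure ℚ

section Curve

variable (E : WeierstrassCurve ℤ) {p : ℕ} [hp : Fact p.Prime]
  (hΔ : (E.map (Int.castRingHom ℚ)).Δ ≠ 0)

/-- A basis of `E[p]`. -/
def basisTor : Module.Basis (Fin 2) (ZMod p) (Conductor.torsionRep E (p := p) hΔ).V :=
  Module.finBasisOfFinrankEq _ _ (Conductor.torsionRep E (p := p) hΔ).finrank_eq

/-- The Galois representation on `E[p]` in matrices. -/
def galMat : GQ →* GL (Fin 2) (ZMod p) :=
  (GalRep.matrixHom (basisTor E hΔ) (Conductor.torsionRep E (p := p) hΔ).ρ).toHomUnits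

theorem val_galMat (σ : GQ) :
    ((galMat E (p := p) hΔ σ : GL (Fin 2) (ZMod p)) : Matrix (Fin 2) (Fin 2) (ZMod p)) =
      LinearMap.toMatrixAlgEquiv (basisTor E hΔ) ((Conductor.torsionRep E hΔ).ρ σ) := rfl

theorem galMat_finiteLevel : GaloisFactorsThroughFiniteLevel (galMat E (p := p) hΔ) := by
  obtain ⟨L, hfin, hL⟩ := (Conductor.torsionRep E (p := p) hΔ).factorsThroughFiniteLevel
  exact ⟨L, hfin, fun σ hσ => Units.ext (by rw [val_galMat, hL σ hσ, map_one, Units.val_one])⟩

theorem charpoly_galMat (σ : GQ) :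
    ((galMat E (p := p) hΔ σ : GL (Fin 2) (ZMod p)) : Matrix (Fin 2) (Fin 2) (ZMod p)).charpoly =
      (GalRep.Tate.tateMatHom (p := p) hΔ σ).charpoly.map (PadicInt.toZMod (p := p)) := by
  rw [val_galMat]
  show (LinearMap.toMatrix _ _ _).charpoly = _
  rw [LinearMap.charpoly_toMatrix, Conductor.charpoly_torsionRep]
  exact congrArg (fun φ => Polynomial.map φ _) (Conductor.padicHom_ext (ZMod.natCast_self p) _ _)

theorem det_galMat (hirr : E.ModRepIsIrreducible p) (σ : GQ) :
    Matrix.GeneralLinearGroup.det (galMat E (p := p) hΔ σ) = omegaBar p σ := by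
  refine Units.ext ?_
  rw [Matrix.GeneralLinearGroup.val_det_apply, val_omegaBar,
    Matrix.det_eq_sign_charpoly_coeff, charpoly_galMat, Fintype.card_fin, Polynomial.coeff_map,
    neg_one_sq, one_mul,
    ← GalRep.Tate.det_eq_cycChar E hΔ (GalRep.Tate.hasNonscalar_of_irreducible E hΔ hirr) σ,
    Matrix.det_eq_sign_charpoly_coeff, Fintype.card_fin, neg_one_sq, one_mul]

theorem galMat_pow_inertia (hss : E.IsSemistableModel) {q : ℕ} (hq : q.Prime) (hqp : q ≠ p)
    {B : ValuationSubring Qb} (hB : B.LiesOverPrime q) {σ : GQ}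
    (hσ : σ ∈ B.inertiaSubgroupIn ℚ) : galMat E (p := p) hΔ σ ^ p = 1 := by
  have hu : ((GalRep.Tate.tateRep p hΔ).ρ σ).charpoly = (X - 1) ^ 2 :=
    GalRep.Tate.charpoly_eq_of_unipotent hΔ σ fun n P hP =>
      Local.galois_sub_sub_of_semistable E hq (GalRep.Tate.intΔ_ne_zero E hΔ) (hss q hq)
        (fun h => hqp ((Nat.prime_dvd_prime_iff_eq hq hp.out).1 (hq.dvd_of_dvd_pow h))) hB hσ hP
  rw [GalRep.Tate.charpoly_tateRep] at hu
  have hc := charpoly_galMat E (p := p) hΔ σ
  rw [hu, Polynomial.map_pow, Polynomial.map_sub, Polynomial.map_X, Polynomial.map_one] at hc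
  set M := ((galMat E (p := p) hΔ σ : GL (Fin 2) (ZMod p)) : Matrix (Fin 2) (Fin 2) (ZMod p))
  have hCH := Matrix.aeval_self_charpoly M
  rw [hc, map_pow, map_sub, aeval_X, map_one] at hCH
  refine Units.ext ?_
  rw [Units.val_pow_eq_pow_val, Units.val_one]
  show M ^ p = 1
  have : CharP (Matrix (Fin 2) (Fin 2) (ZMod p)) p := Matrix.charP p
  have h1 : (M - 1) ^ p = 0 := pow_eq_zero_of_le hp.out.two_le hCH
  rwa [sub_pow_char_of_commute _ (Commute.one_right _), one_pow, sub_eq_zero] at h1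

theorem hypotheses_range (_hp2 : p ≠ 2) (hirr : E.ModRepIsIrreducible p) :
    Hypotheses (galMat E (p := p) hΔ).range where
  det_surj u := by
    obtain ⟨σ, hσ⟩ := omegaBar_surjective p u
    exact ⟨⟨_, σ, rfl⟩, (det_galMat E hΔ hirr σ).trans hσ⟩
  odd := by
    refine ⟨⟨_, complexConjugation, rfl⟩, Subtype.ext ?_, ?_⟩
    · show galMat E hΔ _ * galMat E hΔ _ = 1
      rw [← map_mul, complexConjugation_mul_self, map_one]
    · refine (det_galMat E hΔ hirr _).trans (Units.ext ?_)
      rw [val_omegaBar, GalRep.cycChar_complexConjugation, map_neg, map_one, Units.val_neg,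
        Units.val_one]
  irred v hv := by
    by_contra! hall
    set ρ := Conductor.torsionRep E (p := p) hΔ
    set b := basisTor E (p := p) hΔ
    set x := b.equivFun.symm v with hx
    have hxv : b.equivFun x = v := LinearEquiv.apply_symm_apply _ _
    have hst : ∀ σ : GQ, ∀ y ∈ Submodule.span (ZMod p) {x},
        ρ.ρ σ y ∈ Submodule.span (ZMod p) {x} := by
      intro σ y hy
      obtain ⟨a, rfl⟩ := Submodule.mem_span_singleton.1 hy
      obtain ⟨c, hc⟩ := hall ⟨_, σ, rfl⟩
      have : ρ.ρ σ x = c • x := b.equivFun.injective (by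
        rw [map_smul, hxv, ← hc, ← hxv, val_galMat]
        exact (LinearMap.toMatrix_mulVec_repr b b (ρ.ρ σ) x).symm)
      rw [map_smul, this]
      exact Submodule.smul_mem _ _ (Submodule.smul_mem _ _ (Submodule.mem_span_singleton_self x))
    have hx0 : x ≠ 0 := fun h0 => hv (by rw [← hxv, h0, map_zero])
    have hcases : Submodule.span (ZMod p) {x} = ⊥ ∨ Submodule.span (ZMod p) {x} = ⊤ :=
      hirr.2 (Submodule.span (ZMod p) {x}) hst
    rcases hcases with h | h
    · exact hx0 (by rwa [Submodule.span_singleton_eq_bot] at h)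
    · have h1 := finrank_span_singleton (K := ZMod p) hx0
      rw [h, finrank_top, ρ.finrank_eq] at h1
      exact absurd h1 (by norm_num)

end Curve

/-- The abelian quotients of an image of order prime to `p` see only the determinant. -/
theorem mem_commutator_of_det_one {p : ℕ} [hp : Fact p.Prime]
    {G : Subgroup (GL (Fin 2) (ZMod p))} (r : GQ →* G) (hr : Function.Surjective r)
    (hf : GaloisFactorsThroughFiniteLevel r)
    (hdet : ∀ σ, detG G (r σ) = omegaBar p σ) (hG : ¬ p ∣ Nat.card G)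
    (hunr : ∀ q : ℕ, q.Prime → q ≠ p → ∀ B : ValuationSubring Qb, B.LiesOverPrime q →
      ∀ σ ∈ B.inertiaSubgroupIn ℚ, r σ = 1) :
    ∀ g : G, detG G g = 1 → g ∈ commutator G := by
  intro g hg
  obtain ⟨σ, rfl⟩ := hr g
  rw [hdet] at hg
  set χ : GQ →* Abelianization G × (ZMod p)ˣ :=
    (Abelianization.of.comp r).prod (omegaBar p)
  have hχf : GaloisFactorsThroughFiniteLevel χ := by
    obtain ⟨L₁, h₁, hL₁⟩ := hf
    obtain ⟨L₂, h₂, hL₂⟩ := omegaBar_finiteLevel p
    refine ⟨L₁ ⊔ L₂, IntermediateField.finiteDimensional_sup L₁ L₂, fun τ hτ => Prod.ext ?_ ?_⟩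
    · show Abelianization.of (r τ) = 1
      rw [hL₁ τ fun x hx => hτ x (le_sup_left (a := L₁) (b := L₂) hx), map_one]
    · exact hL₂ τ fun x hx => hτ x (le_sup_right (a := L₁) (b := L₂) hx)
  have hord : ∀ τ, ¬ p ∣ orderOf (χ τ) := fun τ h => by
    have hdvd : orderOf (χ τ) ∣ Nat.card G * (p - 1) := by
      refine orderOf_dvd_of_pow_eq_one (Prod.ext ?_ ?_)
      · show Abelianization.of (r τ) ^ _ = 1
        rw [← map_pow, pow_mul, pow_card_eq_one', one_pow, map_one]
      · show omegaBar p τ ^ _ = 1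
        rw [mul_comm, pow_mul, ZMod.units_pow_card_sub_one_eq_one, one_pow]
    rcases (Nat.Prime.dvd_mul hp.out).1 (h.trans hdvd) with h' | h'
    · exact hG h'
    · have := Nat.le_of_dvd (by have := hp.out.two_le; omega) h'
      have := hp.out.two_le
      omega
  have hχunr : ∀ q : ℕ, q.Prime → q ≠ p → ∀ B : ValuationSubring Qb, B.LiesOverPrime q →
      ∀ τ ∈ B.inertiaSubgroupIn ℚ, χ τ = 1 := fun q hq hqp B hB τ hτ => Prod.ext
    (by show Abelianization.of (r τ) = 1; rw [hunr q hq hqp B hB τ hτ, map_one])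
    (omegaBar_inertia p hq hqp hB hτ)
  obtain ⟨A, hA⟩ := exists_liesOverPrime hp.out
  obtain ⟨i, hi, hiσ⟩ := exists_inertia_map_eq χ hχf hχunr hA σ
  obtain ⟨⟨τ, hτ, hgen⟩, hexp⟩ := tame_image χ hχf hord hA
  obtain ⟨k, hk⟩ := Subgroup.mem_zpowers_iff.1 (hgen i hi)
  have hτord : orderOf (omegaBar p τ) = p - 1 := by
    rw [← ZMod.card_units p, ← Nat.card_eq_fintype_card]
    refine orderOf_eq_card_of_forall_mem_zpowers fun u => ?_
    obtain ⟨j, hj, rfl⟩ := omegaBar_inertia_surjective p hA u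
    obtain ⟨m, hm⟩ := Subgroup.mem_zpowers_iff.1 (hgen j hj)
    exact Subgroup.mem_zpowers_iff.2 ⟨m, congrArg Prod.snd hm⟩
  have hkdvd : (orderOf (omegaBar p τ) : ℤ) ∣ k := by
    refine orderOf_dvd_iff_zpow_eq_one.2 ?_
    have h2 : omegaBar p τ ^ k = omegaBar p σ := (congrArg Prod.snd (hk.trans hiσ) : _)
    rw [h2, hg]
  rw [hτord] at hkdvd
  obtain ⟨m, rfl⟩ := hkdvd
  rw [zpow_mul, zpow_natCast, hexp (fun a b => mul_comm a b) τ hτ, _root_.one_zpow] at hk
  have h1 : Abelianization.of (r σ) = 1 := (congrArg Prod.fst (hk.trans hiσ)).symm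
  rwa [← MonoidHom.mem_ker, Abelianization.ker_of] at h1

/-- The image lemma. -/
theorem imageStep : ImageStep := by
  intro W p _ hS hΔ g hg
  have hirr := hS.irreducible
  have hp2 : p ≠ 2 := by rcases hS.prime_three_five with rfl | rfl <;> decide
  have hH := hypotheses_range W (p := p) hΔ hp2 hirr
  suffices htop : (galMat W (p := p) hΔ).range = ⊤ by
    set b := basisTor W (p := p) hΔ
    have hu : IsUnit (LinearMap.toMatrixAlgEquiv b g) := hg.map (LinearMap.toMatrixAlgEquiv b)
    obtain ⟨σ, hσ⟩ : hu.unit ∈ (galMat W (p := p) hΔ).range := htop ▸ Subgroup.mem_top _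
    refine ⟨σ, (LinearMap.toMatrixAlgEquiv b).injective ?_⟩
    rw [← val_galMat, hσ, IsUnit.unit_spec]
  set G := (galMat W (p := p) hΔ).range with hG
  by_cases hdiv : p ∣ Nat.card G
  · obtain ⟨u, hu⟩ := exists_prime_orderOf_dvd_card' p hdiv
    exact eq_top_of_order_p hH (hu ▸ pow_orderOf_eq_one u) fun h => by
      rw [h, orderOf_one] at hu; exact (Fact.out : p.Prime).ne_one hu.symm
  exfalso
  set r := (galMat W (p := p) hΔ).rangeRestrict
  have hr : Function.Surjective r := MonoidHom.rangeRestrict_surjective _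
  have hrf : GaloisFactorsThroughFiniteLevel r := by
    obtain ⟨L, hfin, hL⟩ := galMat_finiteLevel W (p := p) hΔ
    exact ⟨L, hfin, fun σ hσ => Subtype.ext (hL σ hσ)⟩
  have hdet : ∀ σ, detG G (r σ) = omegaBar p σ := fun σ => det_galMat W hΔ hirr σ
  have hunr : ∀ q : ℕ, q.Prime → q ≠ p → ∀ B : ValuationSubring Qb, B.LiesOverPrime q →
      ∀ σ ∈ B.inertiaSubgroupIn ℚ, r σ = 1 := fun q hq hqp B hB σ hσ => by
    have h1 : r σ ^ p = 1 := Subtype.ext (galMat_pow_inertia W hΔ hS.semistable hq hqp hB hσ)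
    refine orderOf_eq_one_iff.1 (Nat.eq_one_of_dvd_coprimes
      ((Fact.out : p.Prime).coprime_iff_not_dvd.2 hdiv) (orderOf_dvd_of_pow_eq_one h1)
      (orderOf_dvd_natCard _))
  have hab := mem_commutator_of_det_one r hr hrf hdet hdiv hunr
  rcases hS.prime_three_five with rfl | rfl
  · exact false_of_three hH hab hdiv
  · by_cases h3 : 3 ∣ Nat.card G
    · obtain ⟨N, hN, hND, hNi, hNt⟩ := exists_index_twelve hH hab hdiv h3
      set f := (QuotientGroup.mk' N).comp r with hf
      have hfs : Function.Surjective f := (QuotientGroup.mk'_surjective N).comp hr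
      have hff : GaloisFactorsThroughFiniteLevel f := by
        obtain ⟨L, hfin, hL⟩ := hrf
        exact ⟨L, hfin, fun σ hσ => by rw [hf, MonoidHom.comp_apply, hL σ hσ, map_one]⟩
      refine false_of_card_twelve f hff ?_ (fun σ hσ => ?_) (fun q hq hqp B hB σ hσ => ?_) ?_
      · rw [MonoidHom.range_eq_top.2 hfs, Subgroup.card_top]
        exact hNi
      · rw [hf, MonoidHom.comp_apply, ← MonoidHom.mem_ker, QuotientGroup.ker_mk'] at hσ
        rw [← hdet]; exact hND hσ
      · rw [hf, MonoidHom.comp_apply, hunr q hq hqp B hB σ hσ, map_one]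
      · intro B hB σ hσ hω
        obtain ⟨⟨τ, hτ, hgen⟩, -⟩ := tame_image r hrf
          (fun σ h => hdiv (h.trans (orderOf_dvd_natCard _))) hB
        obtain ⟨k, hk⟩ := Subgroup.mem_zpowers_iff.1 (hgen σ hσ)
        have hgen' : ∀ u : (ZMod 5)ˣ, u ∈ Subgroup.zpowers (detG G (r τ)) := fun u => by
          obtain ⟨j, hj, rfl⟩ := omegaBar_inertia_surjective 5 hB u
          obtain ⟨m, hm⟩ := Subgroup.mem_zpowers_iff.1 (hgen j hj)
          exact Subgroup.mem_zpowers_iff.2 ⟨m, by rw [← map_zpow, hm, hdet]⟩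
        have hk4 : ((4 : ℕ) : ℤ) ∣ k := by
          have hord : orderOf (detG G (r τ)) = 4 := by
            rw [orderOf_eq_card_of_forall_mem_zpowers hgen', Nat.card_eq_fintype_card,
              ZMod.card_units]
          rw [← hord, orderOf_dvd_iff_zpow_eq_one, ← map_zpow, hk, hdet, hω]
        obtain ⟨m, rfl⟩ := hk4
        rw [hf, MonoidHom.comp_apply, ← hk, zpow_mul, zpow_natCast, ← MonoidHom.mem_ker,
          QuotientGroup.ker_mk']
        exact Subgroup.zpow_mem N (hNt _ hgen') m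
    · have hd : Nat.card G ∣ 2 ^ 5 * 15 := by
        have := Subgroup.card_subgroup_dvd_card G
        rwa [card_GL2] at this
      have hco : Nat.Coprime (Nat.card G) 15 := by
        rw [show (15 : ℕ) = 3 * 5 by norm_num]
        exact Nat.Coprime.mul_right (Nat.prime_three.coprime_iff_not_dvd.2 h3).symm
          ((show Nat.Prime 5 by norm_num).coprime_iff_not_dvd.2 hdiv).symm
      obtain ⟨k, -, hk⟩ := (Nat.dvd_prime_pow Nat.prime_two).1 (hco.dvd_of_dvd_mul_right hd)
      have : Fact (Nat.Prime 2) := ⟨Nat.prime_two⟩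
      exact not_isPGroup (q := 2) (by decide) hH hab (IsPGroup.of_card hk)

end FermatAgent.RTLift.Finish.Image
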