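import Fermat.Agent.RTLift.Finish.Image.Matrix

/-!
# Images of order prime to `p`, for `p = 3, 5`

With the hypothesis that every element of determinant one is a product of commutators the group
has a normal subgroup of index twelve inside the kernel of the determinant (`p = 5`), or there is
no such group at all.
-/

set_option autoImplicit false

open Matrix
open scoped Pointwise

noncomputable section

namespace FermatAgent.RTLift.Finish.Image

theorem mul_comm_of_nilpotent_of_generated {Γ : Type} [Group Γ] [hΓ : Group.IsNilpotent Γ] :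
    ∀ t : Γ, Subgroup.zpowers t ⊔ commutator Γ = ⊤ → ∀ a b : Γ, a * b = b * a := by
  refine Group.nilpotent_center_quotient_ind
    (P := fun Γ _ _ => ∀ t : Γ, Subgroup.zpowers t ⊔ commutator Γ = ⊤ → ∀ a b : Γ, a * b = b * a)
    Γ ?_ ?_
  · intro Γ _ _ t _ a b; exact Subsingleton.elim _ _
  · intro Γ _ _ ih t ht a b
    set f := QuotientGroup.mk' (Subgroup.center Γ) with hf
    have hs : Function.Surjective f := QuotientGroup.mk'_surjective _
    have hmap : Subgroup.zpowers (f t) ⊔ commutator (Γ ⧸ Subgroup.center Γ) = ⊤ := by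
      have := congrArg (Subgroup.map f) ht
      rw [Subgroup.map_sup, MonoidHom.map_zpowers, Subgroup.map_top_of_surjective f hs,
        commutator_def, Subgroup.map_commutator, Subgroup.map_top_of_surjective f hs] at this
      exact this
    have hcomm := ih (f t) hmap
    have hbot : commutator (Γ ⧸ Subgroup.center Γ) = ⊥ := by
      rw [eq_bot_iff, commutator_eq_closure, Subgroup.closure_le]
      rintro _ ⟨x, y, rfl⟩
      simp [commutatorElement_def, hcomm x y]
    rw [hbot, sup_bot_eq] at hmap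
    have : IsCyclic (Γ ⧸ Subgroup.center Γ) :=
      ⟨f t, fun x => by
        show x ∈ Subgroup.zpowers (f t)
        rw [hmap]; exact Subgroup.mem_top x⟩
    exact (MonoidHom.isMulCommutative_of_isCyclic_of_ker_le_center f
      (by rw [hf, QuotientGroup.ker_mk'])).is_comm.comm a b

section General

variable {p : ℕ} [Fact p.Prime] {G : Subgroup (GL (Fin 2) (ZMod p))}

/-- Such an image is not a group of prime power order. -/
theorem not_isPGroup {q : ℕ} [Fact q.Prime] (hp2 : p ≠ 2) (h : Hypotheses G)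
    (hab : ∀ g : G, detG G g = 1 → g ∈ commutator G) : ¬ IsPGroup q G := by
  intro hq
  obtain ⟨u, hu⟩ := IsCyclic.exists_generator (α := (ZMod p)ˣ)
  obtain ⟨t, ht⟩ := h.det_surj u
  have : Group.IsNilpotent G := hq.isNilpotent
  refine not_commutative hp2 h (mul_comm_of_nilpotent_of_generated t ?_)
  refine eq_top_iff.2 fun g _ => ?_
  obtain ⟨k, hk⟩ := Subgroup.mem_zpowers_iff.1 (hu (detG G g))
  have e : g = t ^ k * ((t ^ k)⁻¹ * g) := (mul_inv_cancel_left _ g).symm
  rw [e]
  refine Subgroup.mul_mem_sup (Subgroup.zpow_mem_zpowers t k) (hab _ ?_)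
  rw [map_mul, map_inv, map_zpow, ht, hk, inv_mul_cancel]

theorem card_GL2 : Nat.card (GL (Fin 2) (ZMod p)) = (p ^ 2 - 1) * (p ^ 2 - p) := by
  rw [Matrix.card_GL_field, Fin.prod_univ_two, ZMod.card]
  simp

theorem index_ker_detG (h : Hypotheses G) : (detG G).ker.index = p - 1 := by
  rw [Subgroup.index_ker, MonoidHom.range_eq_top.2 h.det_surj, Subgroup.card_top,
    Nat.card_eq_fintype_card, ZMod.card_units]

end General

/-- No such image of order prime to `3` at `p = 3`. -/
theorem false_of_three {G : Subgroup (GL (Fin 2) (ZMod 3))} (h : Hypotheses G)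
    (hab : ∀ g : G, detG G g = 1 → g ∈ commutator G) (h3 : ¬ 3 ∣ Nat.card G) : False := by
  have hd : Nat.card G ∣ 2 ^ 4 * 3 := by
    have := Subgroup.card_subgroup_dvd_card G
    rwa [card_GL2] at this
  have hd' : Nat.card G ∣ 2 ^ 4 :=
    (((Nat.prime_three.coprime_iff_not_dvd).2 h3).symm).dvd_of_dvd_mul_right hd
  obtain ⟨k, -, hk⟩ := (Nat.dvd_prime_pow Nat.prime_two).1 hd'
  have : Fact (Nat.Prime 2) := ⟨Nat.prime_two⟩
  exact not_isPGroup (q := 2) (by decide) h hab (IsPGroup.of_card hk)

section Five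

local instance fact_prime_five : Fact (Nat.Prime 5) := ⟨by norm_num⟩

theorem sq_ne_neg_three : ∀ y : ZMod 5, y * y ≠ -3 := by decide

/-- An element of order three does not commute with an odd element, over `𝔽₅`. -/
theorem eq_one_of_commute_odd {c a : GL (Fin 2) (ZMod 5)}
    (hc : c * c = 1) (hcd : (c : Matrix (Fin 2) (Fin 2) (ZMod 5)).det = -1) (ha : a ^ 3 = 1)
    (had : (a : Matrix (Fin 2) (Fin 2) (ZMod 5)).det = 1) (hca : c * a = a * c) : a = 1 := by
  set C := (c : Matrix (Fin 2) (Fin 2) (ZMod 5)) with hC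
  set A := (a : Matrix (Fin 2) (Fin 2) (ZMod 5)) with hA
  have hCC : C * C = 1 := by rw [hC, ← Units.val_mul, hc]; rfl
  have hAC : C * A = A * C := by rw [hC, hA, ← Units.val_mul, hca]; rfl
  have hA3 : A * A * A = 1 := by rw [hA, ← Units.val_mul, ← Units.val_mul, ← pow_three', ha]; rfl
  rw [det_fin_two] at hcd had
  have c00 := congrFun (congrFun hCC 0) 0
  have c01 := congrFun (congrFun hCC 0) 1
  have c10 := congrFun (congrFun hCC 1) 0
  have m00 := congrFun (congrFun hAC 0) 0
  have m01 := congrFun (congrFun hAC 0) 1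
  have m10 := congrFun (congrFun hAC 1) 0
  have a00 := congrFun (congrFun hA3 0) 0
  have a01 := congrFun (congrFun hA3 0) 1
  have a10 := congrFun (congrFun hA3 1) 0
  have a11 := congrFun (congrFun hA3 1) 1
  simp only [mul_apply, Fin.sum_univ_two, one_apply_eq,
    one_apply_ne (show (0 : Fin 2) ≠ 1 by decide), one_apply_ne (show (1 : Fin 2) ≠ 0 by decide)]
    at c00 c01 c10 m00 m01 m10 a00 a01 a10 a11
  have hu : IsUnit (2 : ZMod 5) := (show (2 : ZMod 5) ≠ 0 by decide).isUnit
  -- the trace of `C` vanishes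
  have ht : C 0 0 + C 1 1 = 0 := by
    by_contra hne
    have h01 : C 0 1 = 0 := (mul_eq_zero.1 (show (C 0 0 + C 1 1) * C 0 1 = 0 by
      linear_combination c01)).resolve_left hne
    have h10 : C 1 0 = 0 := (mul_eq_zero.1 (show (C 0 0 + C 1 1) * C 1 0 = 0 by
      linear_combination c10)).resolve_left hne
    rw [h01, zero_mul, sub_zero] at hcd
    rw [h01, zero_mul, add_zero] at c00
    exact hne (mul_left_cancel₀ (show C 0 0 ≠ 0 from fun h0 => zero_ne_one (by rw [← c00, h0,
      zero_mul])) (by linear_combination c00 + hcd))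
  set t := A 0 0 + A 1 1 with ht'
  -- Cayley-Hamilton turns `A ^ 3 = 1` into `(t ^ 2 - 1) A = (t + 1)`
  have k01 : (t ^ 2 - 1) * A 0 1 = 0 := by linear_combination a01 + A 0 1 * had
  have k10 : (t ^ 2 - 1) * A 1 0 = 0 := by linear_combination a10 + A 1 0 * had
  have k00 : (t ^ 2 - 1) * A 0 0 = t + 1 := by linear_combination a00 + (A 0 0 + t) * had
  have k11 : (t ^ 2 - 1) * A 1 1 = t + 1 := by linear_combination a11 + (A 1 1 + t) * had
  suffices hscal : A 0 1 = 0 ∧ A 1 0 = 0 ∧ A 0 0 = A 1 1 by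
    obtain ⟨h01, h10, h00⟩ := hscal
    rw [h01, h10, zero_mul, sub_zero, ← h00] at had
    rw [h01, zero_mul, add_zero] at a00
    have h1 : A 0 0 = 1 := by linear_combination a00 - A 0 0 * had
    refine Units.ext ?_
    ext i j
    fin_cases i <;> fin_cases j <;> simp [← hA, h01, h10, ← h00, h1]
  by_cases ht1 : t ^ 2 - 1 = 0
  · have htm : t = -1 := by linear_combination -k00 + A 0 0 * ht1
    -- `A` lies in the commutant of `C`, an algebra with split discriminant
    set x := (A 0 0 - A 1 1) * C 0 0 + A 0 1 * C 1 0 + A 1 0 * C 0 1 with hx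
    have hxx : x * x = -3 := by
      have hd : (A 0 0 - A 1 1) ^ 2 + 4 * (A 0 1 * A 1 0) = -3 := by
        linear_combination (A 0 0 + A 1 1 - 1) * htm - 4 * had
      rw [← hd, hx]
      linear_combination
        (C 0 1 * A 1 0 - C 1 0 * A 0 1) * m00 +
          ((A 0 0 - A 1 1) * C 1 0 - 2 * C 0 0 * A 1 0) * (m01 + A 0 1 * ht) +
          ((A 0 0 - A 1 1) ^ 2 + 4 * (A 0 1 * A 1 0)) * c00
    exact absurd hxx (sq_ne_neg_three x)
  · refine ⟨(mul_eq_zero.1 k01).resolve_left ht1, (mul_eq_zero.1 k10).resolve_left ht1,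
      mul_left_cancel₀ ht1 (k00.trans k11.symm)⟩

/-- The Klein four condition on permutations of four letters. -/
def IsKlein (σ : Equiv.Perm (Fin 4)) : Prop := σ * σ = 1 ∧ Equiv.Perm.sign σ = 1

instance : DecidablePred IsKlein := fun _ => inferInstanceAs (Decidable (_ ∧ _))

theorem isKlein_mul : ∀ a b : Equiv.Perm (Fin 4), IsKlein a → IsKlein b → IsKlein (a * b) := by
  decide +kernel

theorem isKlein_cases : ∀ a : Equiv.Perm (Fin 4), a ^ 3 = 1 → a ≠ 1 →
    ∀ σ : Equiv.Perm (Fin 4), Equiv.Perm.sign σ = 1 →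
      IsKlein σ ∨ IsKlein (σ * a) ∨ IsKlein (σ * (a * a)) := by
  decide +kernel

theorem pow_inj_of_three : ∀ a : Equiv.Perm (Fin 4), a ≠ 1 → a ^ 3 = 1 → ∀ i j : Fin 3,
    a ^ (i : ℕ) = a ^ (j : ℕ) → i = j := by
  decide +kernel

theorem eq_one_of_isKlein : ∀ a : Equiv.Perm (Fin 4), a ^ 3 = 1 → IsKlein a → a = 1 := by
  decide +kernel

theorem isKlein_commutator : ∀ σ τ : Equiv.Perm (Fin 4), Equiv.Perm.sign σ = 1 →
    Equiv.Perm.sign τ = 1 → IsKlein (σ * τ * σ⁻¹ * τ⁻¹) := by
  decide +kernel

theorem isKlein_of_commute_odd : ∀ σ τ : Equiv.Perm (Fin 4), Equiv.Perm.sign σ = -1 →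
    Equiv.Perm.sign τ = 1 → σ * τ = τ * σ → IsKlein τ := by
  decide +kernel

theorem isKlein_conj {σ : Equiv.Perm (Fin 4)} (h : IsKlein σ) (g : Equiv.Perm (Fin 4)) :
    IsKlein (g * σ * g⁻¹) := by
  refine ⟨?_, ?_⟩
  · rw [show g * σ * g⁻¹ * (g * σ * g⁻¹) = g * (σ * σ) * g⁻¹ by group, h.1, mul_one, mul_inv_cancel]
  · rw [map_mul, map_mul, h.2, mul_one, map_inv, mul_inv_cancel]

variable {G : Subgroup (GL (Fin 2) (ZMod 5))}

theorem map_eq_one_of_det_one (hab : ∀ g : G, detG G g = 1 → g ∈ commutator G) {M : Type*}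
    [CommGroup M] (χ : G →* M) {g : G} (hg : detG G g = 1) : χ g = 1 :=
  Abelianization.commutator_subset_ker χ (hab g hg)

/-- `p = 5`, the exceptional shape: a normal subgroup of index twelve. -/
theorem exists_index_twelve (h : Hypotheses G)
    (hab : ∀ g : G, detG G g = 1 → g ∈ commutator G) (h5 : ¬ 5 ∣ Nat.card G)
    (h3 : 3 ∣ Nat.card G) :
    ∃ N : Subgroup G, N.Normal ∧ N ≤ (detG G).ker ∧ N.index = 12 ∧
      ∀ t : G, (∀ u : (ZMod 5)ˣ, u ∈ Subgroup.zpowers (detG G t)) → t ^ 4 ∈ N := by
  classical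
  set D := (detG G).ker with hD
  have hDi : D.index = 4 := index_ker_detG h
  have hGc : Nat.card D * 4 = Nat.card G := by rw [← hDi]; exact D.card_mul_index
  have hdiv : Nat.card D ∣ 24 := by
    have hd := Subgroup.card_subgroup_dvd_card G
    rw [card_GL2] at hd
    have hco : Nat.Coprime (Nat.card D * 4) 5 := by
      rw [hGc]
      exact ((show Nat.Prime 5 by norm_num).coprime_iff_not_dvd.2 h5).symm
    rw [← hGc] at hd
    have hd' : Nat.card D * 4 ∣ 96 * 5 := by norm_num at hd ⊢; exact hd
    exact Nat.dvd_of_mul_dvd_mul_right (by norm_num : 0 < 4) (hco.dvd_of_dvd_mul_right hd')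
  have h3D : 3 ∣ Nat.card D :=
    (Nat.Coprime.dvd_of_dvd_mul_right (by norm_num) (hGc.symm ▸ h3))
  have h33 : ¬ 3 ^ 2 ∣ Nat.card D := fun h9 => by
    have := h9.trans hdiv
    norm_num at this
  have : Fact (Nat.Prime 3) := ⟨Nat.prime_three⟩
  obtain ⟨α, hα⟩ := exists_prime_orderOf_dvd_card' 3 h3D
  have hα3 : α ^ 3 = 1 := hα ▸ pow_orderOf_eq_one α
  have hα1 : α ≠ 1 := fun e => by rw [e, orderOf_one] at hα; norm_num at hα
  have hPcard : ∀ P : Sylow 3 D, Nat.card (P : Subgroup D) = 3 := fun P => by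
    rw [P.card_eq_multiplicity]
    have hn : Nat.card D ≠ 0 := Nat.card_pos.ne'
    have h1 := (Nat.prime_three.pow_dvd_iff_le_factorization (k := 1) hn).1 (by simpa using h3D)
    have h2 : ¬ 2 ≤ (Nat.card D).factorization 3 := fun e =>
      h33 ((Nat.prime_three.pow_dvd_iff_le_factorization hn).2 e)
    rw [show (Nat.card D).factorization 3 = 1 by omega, pow_one]
  have hαp : IsPGroup 3 (Subgroup.zpowers α) := IsPGroup.of_card (n := 1) (by
    rw [Nat.card_zpowers, hα, pow_one])
  obtain ⟨P, hP⟩ := hαp.exists_le_sylow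
  have hPα : (P : Subgroup D) = Subgroup.zpowers α := (Subgroup.eq_of_le_of_card_ge hP (by
    rw [Nat.card_zpowers, hα, hPcard])).symm
  -- the number of Sylow subgroups
  have hn : Nat.card (Sylow 3 D) = 1 ∨ Nat.card (Sylow 3 D) = 4 := by
    have h1 : Nat.card (Sylow 3 D) % 3 = 1 := card_sylow_modEq_one 3 D
    have hi : (P : Subgroup D).index ∣ 8 := by
      have := (P : Subgroup D).card_mul_index
      rw [hPcard] at this
      exact Nat.dvd_of_mul_dvd_mul_left (by norm_num : 0 < 3) (this ▸ hdiv)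
    have h2 := (Nat.dvd_prime_pow Nat.prime_two (m := 3)).1 (P.card_dvd_index.trans hi)
    obtain ⟨k, hk, hk'⟩ := h2
    interval_cases k <;> simp_all
  rcases hn with hn | hn
  · exfalso
    obtain ⟨c, hc, hcd⟩ := h.odd
    have hcent : c * (α : G) ≠ (α : G) * c := fun e => by
      have := eq_one_of_commute_odd (c := (c : GL (Fin 2) (ZMod 5)))
        (a := ((α : G) : GL (Fin 2) (ZMod 5)))
        (by rw [← Subgroup.coe_mul, hc]; rfl) (by rw [← val_detG, hcd]; rfl)
        (by rw [← SubgroupClass.coe_pow, ← SubgroupClass.coe_pow, hα3]; rfl)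
        (by rw [← val_detG, show detG G (α : G) = 1 from α.2]; rfl)
        (by rw [← Subgroup.coe_mul, ← Subgroup.coe_mul, e])
      exact hα1 (Subtype.ext (Subtype.ext this))
    have : Subsingleton (Sylow 3 D) := (Nat.card_eq_one_iff_unique.1 hn).1
    have hconj : ∀ g : G, g * α * g⁻¹ = (α : G) ∨ g * α * g⁻¹ = ((α : G))⁻¹ := fun g => by
      have hmem : (MulAut.conjNormal g : MulAut D) • α ∈
          (MulAut.conjNormal g : MulAut D) • (P : Subgroup D) :=
        Subgroup.smul_mem_pointwise_smul α (MulAut.conjNormal g : MulAut D) _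
          (hP (Subgroup.mem_zpowers α))
      rw [← Sylow.pointwise_smul_def, Subsingleton.elim (MulAut.conjNormal g • P) P, hPα,
        mem_zpowers_iff_mem_range_orderOf, hα] at hmem
      simp only [Finset.mem_image, Finset.mem_range] at hmem
      obtain ⟨k, hk, hk'⟩ := hmem
      have e : g * α * g⁻¹ = (α : G) ^ k := by
        rw [← SubgroupClass.coe_pow, hk']; rfl
      have hαi : ((α : G))⁻¹ = (α : G) ^ 2 :=
        inv_eq_of_mul_eq_one_right (by rw [← pow_succ', ← SubgroupClass.coe_pow, hα3]; rfl)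
      interval_cases k
      · rw [pow_zero, mul_inv_eq_one, mul_eq_left] at e
        exact absurd (Subtype.ext e) hα1
      · exact Or.inl (e.trans (pow_one _))
      · exact Or.inr (e.trans hαi.symm)
    let εf : G → ℤˣ := fun g => if g * α * g⁻¹ = (α : G) then 1 else -1
    have hne : (α : G) ≠ (α : G)⁻¹ := fun e => by
      have h2 : (α : G) ^ 2 = 1 := by rw [sq]; exact mul_eq_one_iff_eq_inv.2 e
      have : α ^ 2 = 1 := Subtype.ext (by rw [SubgroupClass.coe_pow, h2]; rfl)
      have := orderOf_dvd_of_pow_eq_one this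
      rw [hα] at this; norm_num at this
    let ε : G →* ℤˣ :=
      { toFun := εf
        map_one' := by simp [εf]
        map_mul' := fun g g' => by
          have e : g * g' * α * (g * g')⁻¹ = g * (g' * α * g'⁻¹) * g⁻¹ := by group
          have e' : g * ((α : G))⁻¹ * g⁻¹ = (g * α * g⁻¹)⁻¹ := by group
          simp only [εf, e]
          rcases hconj g with h1 | h1 <;> rcases hconj g' with h2 | h2 <;>
            simp [h1, h2, e', hne.symm] }
    obtain ⟨s, hs⟩ := h.det_surj (ZMod.unitOfCoprime 2 (by norm_num))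
    have hεc : ε c = 1 := by
      have hd : detG G ((s ^ 2)⁻¹ * c) = 1 := by
        rw [map_mul, map_inv, map_pow, hs, hcd, inv_mul_eq_one]; exact Units.ext (by decide)
      have := map_eq_one_of_det_one hab ε hd
      rwa [map_mul, map_inv, map_pow, Int.units_sq, inv_one, one_mul] at this
    change (if c * α * c⁻¹ = (α : G) then (1 : ℤˣ) else -1) = 1 at hεc
    split at hεc
    · next e => exact hcent (mul_inv_eq_iff_eq_mul.1 e)
    · exact absurd hεc (by decide)
  · have : Finite (Sylow 3 D) := inferInstance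
    let e : Sylow 3 D ≃ Fin 4 := (Finite.equivFin _).trans (finCongr hn)
    let ψ : G →* Equiv.Perm (Fin 4) := e.permCongrHom.toMonoidHom.comp
      ((MulAction.toPermHom (MulAut D) (Sylow 3 D)).comp MulAut.conjNormal)
    have hψα : ψ (α : G) ≠ 1 := fun hψ => by
      have hfix : ∀ Q : Sylow 3 D, α • Q = Q := fun Q => by
        have h1 : MulAction.toPermHom (MulAut D) (Sylow 3 D) (MulAut.conjNormal (α : G)) = 1 :=
          e.permCongrHom.injective (by rw [map_one]; exact hψ)
        have h2 := Equiv.ext_iff.1 h1 Q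
        rwa [MulAction.toPermHom_apply, MulAction.toPerm_apply, Equiv.Perm.one_apply,
          MulAut.conjNormal_val] at h2
      obtain ⟨Q, hQ⟩ : ∃ Q : Sylow 3 D, Q ≠ P := by
        by_contra! hall
        have : Subsingleton (Sylow 3 D) := ⟨fun a b => (hall a).trans (hall b).symm⟩
        have := Finite.card_le_one_iff_subsingleton.2 this
        omega
      have hmem : α ∈ (P : Subgroup D) ⊓ Subgroup.normalizer (Q : Set D) :=
        ⟨hP (Subgroup.mem_zpowers α), Sylow.smul_eq_iff_mem_normalizer.1 (hfix Q)⟩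
      rw [P.isPGroup'.inf_normalizer_sylow] at hmem
      refine hQ (Sylow.ext ((Subgroup.eq_of_le_of_card_ge ?_ (by rw [hPcard, hPcard])).symm))
      rw [hPα, Subgroup.zpowers_le]
      exact hmem.2
    have hψ3 : ψ (α : G) ^ 3 = 1 := by
      rw [← map_pow, ← SubgroupClass.coe_pow, hα3]; exact map_one _
    have heven : ∀ d : G, detG G d = 1 → Equiv.Perm.sign (ψ d) = 1 := fun d hd =>
      map_eq_one_of_det_one hab (Equiv.Perm.sign.comp ψ) hd
    have hinv : ∀ g : G, IsKlein (ψ g) → IsKlein (ψ g⁻¹) := fun g hg => by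
      rwa [map_inv, inv_eq_of_mul_eq_one_right hg.1]
    let K : Subgroup G :=
      { carrier := {g | IsKlein (ψ g)}
        mul_mem' := fun {a b} ha hb => by
          show IsKlein (ψ (a * b)); rw [map_mul]; exact isKlein_mul _ _ ha hb
        one_mem' := by show IsKlein (ψ 1); rw [map_one]; exact ⟨one_mul 1, map_one _⟩
        inv_mem' := fun {a} ha => hinv a ha }
    set N := D ⊓ K with hN
    have hKn : K.Normal := ⟨fun n hn g => by
      show IsKlein (ψ (g * n * g⁻¹))
      rw [map_mul, map_mul, map_inv]; exact isKlein_conj hn _⟩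
    have hNn : N.Normal := inferInstance
    refine ⟨N, hNn, inf_le_left, ?_, fun t ht => ?_⟩
    · have hrel : N.relIndex D = 3 := by
        have hmem : ∀ d : D, d ∈ N.subgroupOf D ↔ IsKlein (ψ d) := fun d =>
          ⟨fun hd => hd.2, fun hd => ⟨d.2, hd⟩⟩
        have hnot : ∀ i j : Fin 3, i ≠ j → ¬ IsKlein (ψ ((α ^ (i : ℕ))⁻¹ * α ^ (j : ℕ) : D)) := by
          intro i j hij hK
          have h3' : (ψ ((α ^ (i : ℕ))⁻¹ * α ^ (j : ℕ) : D)) ^ 3 = 1 := by
            rw [← map_pow, ← SubgroupClass.coe_pow, ((Commute.refl α).pow_pow _ _).inv_left.mul_pow,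
              inv_pow, ← pow_mul, ← pow_mul, mul_comm (i : ℕ), mul_comm (j : ℕ), pow_mul, pow_mul,
              hα3, one_pow, one_pow, inv_one, mul_one]
            exact map_one _
          have h1 := eq_one_of_isKlein _ h3' hK
          rw [Subgroup.coe_mul, Subgroup.coe_inv, map_mul, map_inv, inv_mul_eq_one,
            SubgroupClass.coe_pow, SubgroupClass.coe_pow, map_pow, map_pow] at h1
          exact hij (pow_inj_of_three _ hψα hψ3 i j h1)
        show (N.subgroupOf D).index = 3
        rw [Subgroup.index]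
        refine (Nat.card_eq_of_bijective (fun i : Fin 3 => ((α ^ (i : ℕ) : D) : D ⧸ N.subgroupOf D))
          ⟨fun i j hij => ?_, fun x => ?_⟩).symm.trans (Nat.card_fin 3)
        · by_contra hne
          exact hnot i j hne ((hmem _).1 (QuotientGroup.eq.1 hij))
        · obtain ⟨d, rfl⟩ := QuotientGroup.mk_surjective x
          have hev : Equiv.Perm.sign (ψ (d : G))⁻¹ = 1 := by
            rw [map_inv, heven _ d.2, inv_one]
          have key : ∃ i : Fin 3, IsKlein ((ψ (d : G))⁻¹ * ψ (α : G) ^ (i : ℕ)) := by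
            rcases isKlein_cases _ hψ3 hψα _ hev with h1 | h1 | h1
            · exact ⟨0, by simpa using h1⟩
            · exact ⟨1, by simpa using h1⟩
            · exact ⟨2, by simpa [pow_two] using h1⟩
          obtain ⟨i, hi⟩ := key
          refine ⟨i, (QuotientGroup.eq.2 ((hmem _).2 ?_)).symm⟩
          rw [Subgroup.coe_mul, Subgroup.coe_inv, map_mul, map_inv, SubgroupClass.coe_pow, map_pow]
          exact hi
      rw [← Subgroup.relIndex_mul_index (inf_le_left : N ≤ D), hrel, hDi]
    · have hd4 : detG G (t ^ 4) = 1 := by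
        rw [map_pow, show (4 : ℕ) = 5 - 1 by norm_num]
        exact ZMod.units_pow_card_sub_one_eq_one 5 _
      refine ⟨hd4, ?_⟩
      have hodd : Equiv.Perm.sign (ψ t) = -1 := by
        refine (Int.units_eq_one_or _).resolve_left fun h1 => ?_
        have hall : ∀ g : G, Equiv.Perm.sign (ψ g) = 1 := fun g => by
          obtain ⟨k, hk⟩ := Subgroup.mem_zpowers_iff.1 (ht (detG G g))
          have := heven ((t ^ k)⁻¹ * g) (by rw [map_mul, map_inv, map_zpow, hk, inv_mul_cancel])
          rwa [map_mul, map_inv, map_zpow, map_mul, map_inv, map_zpow, h1, _root_.one_zpow,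
            inv_one, one_mul] at this
        have hle : commutator G ≤ K := by
          rw [commutator_eq_closure, Subgroup.closure_le]
          rintro _ ⟨x, y, rfl⟩
          show IsKlein (ψ _)
          rw [commutatorElement_def, map_mul, map_mul, map_mul, map_inv, map_inv]
          exact isKlein_commutator _ _ (hall x) (hall y)
        exact hψα (eq_one_of_isKlein _ hψ3 (hle (hab _ α.2)))
      exact isKlein_of_commute_odd (ψ t) _ hodd (heven _ hd4)
        (by rw [← map_mul, ← map_mul, ← pow_succ', ← pow_succ])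

end Five

end FermatAgent.RTLift.Finish.Image
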