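import Mathlib

/-!
# Two by two matrix groups: transvections, odd elements

`Hypotheses G` collects what is known of the image of an irreducible mod `p` representation of an
elliptic curve over `ℚ`.
-/

set_option autoImplicit false

open Matrix

noncomputable section

namespace FermatAgent.RTLift.Finish.Image

variable {p : ℕ} [Fact p.Prime]

local notation "GL2" => GL (Fin 2) (ZMod p)
local notation "M2" => Matrix (Fin 2) (Fin 2) (ZMod p)

/-- Determinant of the elements of a matrix group. -/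
def detG (G : Subgroup GL2) : G →* (ZMod p)ˣ :=
  GeneralLinearGroup.det.comp G.subtype

theorem val_detG {G : Subgroup GL2} (g : G) :
    ((detG G g : (ZMod p)ˣ) : ZMod p) = ((g : GL2) : M2).det := rfl

/-- Surjective determinant, an odd element, no invariant line. -/
structure Hypotheses (G : Subgroup GL2) : Prop where
  det_surj : Function.Surjective (detG G)
  odd : ∃ c : G, c * c = 1 ∧ detG G c = -1
  irred : ∀ v : Fin 2 → ZMod p, v ≠ 0 → ∃ g : G, ∀ a : ZMod p, ((g : GL2) : M2) *ᵥ v ≠ a • v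

/-- Upper unipotent. -/
def upperU (x : ZMod p) : M2 := !![1, x; 0, 1]

/-- Lower unipotent. -/
def lowerU (x : ZMod p) : M2 := !![1, 0; x, 1]

theorem det_lowerU (x : ZMod p) : (lowerU x).det = 1 := by simp [lowerU, det_fin_two]

theorem upperU_mul (x y : ZMod p) : upperU x * upperU y = upperU (x + y) := by
  ext i j; fin_cases i <;> fin_cases j <;> simp [upperU, mul_apply, Fin.sum_univ_two, add_comm]

theorem lowerU_mul (x y : ZMod p) : lowerU x * lowerU y = lowerU (x + y) := by
  ext i j; fin_cases i <;> fin_cases j <;> simp [lowerU, mul_apply, Fin.sum_univ_two]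

theorem lower_upper_form {M : M2} (hdet : M.det = 1) (h : M 1 0 ≠ 0) :
    M = upperU ((M 0 0 - 1) / M 1 0) * lowerU (M 1 0) * upperU ((M 1 1 - 1) / M 1 0) := by
  rw [det_fin_two] at hdet
  ext i j
  fin_cases i <;> fin_cases j <;>
    simp only [upperU, lowerU, mul_apply, Fin.sum_univ_two, Matrix.of_apply, Matrix.cons_val',
      Matrix.cons_val_zero, Matrix.cons_val_one, Matrix.cons_val_fin_one, Fin.zero_eta,
      Fin.mk_one, one_mul, mul_one, zero_mul, mul_zero, add_zero, zero_add] <;>
    field_simp <;>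
    (try linear_combination -hdet) <;> ring

/-- A set of matrices containing both unipotent groups, closed under products, contains `SL₂`. -/
theorem mem_of_unipotents (S : Set M2) (hmul : ∀ a ∈ S, ∀ b ∈ S, a * b ∈ S)
    (hU : ∀ x, upperU x ∈ S) (hL : ∀ x, lowerU x ∈ S) {M : M2} (hdet : M.det = 1) : M ∈ S := by
  have main : ∀ N : M2, N.det = 1 → N 1 0 ≠ 0 → N ∈ S := fun N hN h => by
    rw [lower_upper_form hN h]
    exact hmul _ (hmul _ (hU _) _ (hL _)) _ (hU _)
  by_cases h : M 1 0 = 0
  · have hM : M = lowerU (-1) * (lowerU 1 * M) := by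
      rw [← mul_assoc, lowerU_mul, neg_add_cancel, show lowerU (0 : ZMod p) = 1 by
        ext i j; fin_cases i <;> fin_cases j <;> simp [lowerU], one_mul]
    rw [hM]
    refine hmul _ (hL _) _ (main _ (by rw [det_mul, det_lowerU, one_mul, hdet]) ?_)
    intro h0
    rw [det_fin_two, h, mul_zero, sub_zero] at hdet
    have : M 0 0 = 0 := by simpa [lowerU, mul_apply, Fin.sum_univ_two, h] using h0
    rw [this, zero_mul] at hdet
    exact zero_ne_one hdet
  · exact main M hdet h

theorem sq_zero_of_pow_char {g : GL2} (hg : g ^ p = 1) :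
    (((g : M2)) - 1) * (((g : M2)) - 1) = 0 := by
  set N := (g : M2) - 1 with hN
  have h1 : N ^ p = 0 := by
    have : CharP M2 p := Matrix.charP p
    rw [hN, sub_pow_char_of_commute _ (Commute.one_right _), one_pow, ← Units.val_pow_eq_pow_val,
      hg, Units.val_one, sub_self]
  have hd : N.det = 0 := eq_zero_of_pow_eq_zero (n := p) (by
    rw [← det_pow, h1, det_zero])
  have hsq : N * N = N.trace • N := by
    rw [det_fin_two] at hd
    ext i j
    rw [mul_apply, Fin.sum_univ_two, Matrix.smul_apply, trace_fin_two, smul_eq_mul]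
    fin_cases i <;> fin_cases j <;> simp only [Fin.zero_eta, Fin.mk_one]
    · linear_combination -hd
    · ring
    · ring
    · linear_combination -hd
  have hpow : ∀ k : ℕ, N ^ (k + 1) = N.trace ^ k • N := fun k => by
    induction k with
    | zero => simp
    | succ k ih => rw [pow_succ N (k + 1), ih, smul_mul_assoc, hsq, smul_smul, ← pow_succ]
  have hp := hpow (p - 1)
  rw [Nat.sub_add_cancel (Fact.out : p.Prime).one_lt.le, h1, eq_comm, smul_eq_zero] at hp
  rcases hp with h | h
  · rw [hsq, eq_zero_of_pow_eq_zero h, zero_smul]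
  · rw [h, mul_zero]

variable {G : Subgroup (GL (Fin 2) (ZMod p))}

/-- An irreducible group with surjective determinant and an element of order `p` is everything. -/
theorem eq_top_of_order_p (h : Hypotheses G) {u : G} (hu : u ^ p = 1) (hu1 : u ≠ 1) : G = ⊤ := by
  have hu' : (u : GL2) ^ p = 1 := by rw [← SubgroupClass.coe_pow, hu, OneMemClass.coe_one]
  have hN2 := sq_zero_of_pow_char hu'
  set N := ((u : GL2) : M2) - 1 with hN
  have hN0 : N ≠ 0 := fun h0 => hu1 (Subtype.ext (Units.ext (sub_eq_zero.1 h0)))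
  obtain ⟨j, hj⟩ : ∃ j, N *ᵥ Pi.single j 1 ≠ 0 := by
    by_contra! hall
    refine hN0 (Matrix.ext fun i j => ?_)
    have := congrFun (hall j) i
    rwa [mulVec_single_one] at this
  set v := N *ᵥ Pi.single j 1 with hv
  have hNv : N *ᵥ v = 0 := by rw [hv, mulVec_mulVec, hN2, zero_mulVec]
  obtain ⟨g, hg⟩ := h.irred v hj
  set w := ((g : GL2) : M2) *ᵥ v with hw
  -- the change of basis
  set Q : M2 := !![v 0, w 0; v 1, w 1] with hQ
  have hQd : Q.det ≠ 0 := by
    intro h0
    rw [hQ, det_fin_two_of] at h0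
    by_cases hv0 : v 0 = 0
    · have hv1 : v 1 ≠ 0 := fun h1 => hj (funext (Fin.forall_fin_two.2 ⟨hv0, h1⟩))
      refine hg (w 1 / v 1) (funext (Fin.forall_fin_two.2 ⟨?_, ?_⟩))
      · rw [hv0, zero_mul, zero_sub, neg_eq_zero, mul_eq_zero, or_iff_left hv1] at h0
        simp [h0, hv0]
      · simp [hv1]
    · refine hg (w 0 / v 0) (funext (Fin.forall_fin_two.2 ⟨?_, ?_⟩))
      · simp [hv0]
      · simp only [Pi.smul_apply, smul_eq_mul]
        field_simp
        linear_combination h0
  set q : GL2 := GeneralLinearGroup.mkOfDetNeZero Q hQd with hq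
  set S : Set M2 := {M | ∃ x : G, ((q⁻¹ * (x : GL2) * q : GL2) : M2) = M} with hS
  have hSmul : ∀ a ∈ S, ∀ b ∈ S, a * b ∈ S := by
    rintro _ ⟨x, rfl⟩ _ ⟨y, rfl⟩
    refine ⟨x * y, ?_⟩
    rw [← Units.val_mul, Subgroup.coe_mul]
    congr 1
    group
  -- the two transvections in the new basis
  set T := ((q⁻¹ : GL2) : M2) * N * (q : M2) with hT
  set T' := ((q⁻¹ : GL2) : M2) * (((g : GL2) : M2) * N * (((g : GL2)⁻¹ : GL2) : M2)) * (q : M2)
    with hT'
  have hqe : ∀ z : Fin 2 → ZMod p, ((q⁻¹ : GL2) : M2) *ᵥ ((q : M2) *ᵥ z) = z := fun z => by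
    rw [mulVec_mulVec, ← Units.val_mul, inv_mul_cancel, Units.val_one, one_mulVec]
  have hq0 : (q : M2) *ᵥ ![1, 0] = v := by
    funext i; fin_cases i <;> simp [hq, hQ, mulVec, dotProduct, Fin.sum_univ_two]
  have hq1 : (q : M2) *ᵥ ![0, 1] = w := by
    funext i; fin_cases i <;> simp [hq, hQ, mulVec, dotProduct, Fin.sum_univ_two]
  have hT2 : T * T = 0 := by
    rw [hT, mul_assoc, mul_assoc, ← mul_assoc (q : M2), ← mul_assoc (q : M2), ← Units.val_mul,
      mul_inv_cancel, Units.val_one, one_mul, ← mul_assoc N, hN2, zero_mul, mul_zero]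
  have hT'2 : T' * T' = 0 := by
    have : ∀ a b : GL2, ((a : M2) * N * ((a⁻¹ : GL2) : M2)) * ((a : M2) * N * ((a⁻¹ : GL2) : M2))
        = 0 := fun a b => by
      rw [mul_assoc, mul_assoc, ← mul_assoc ((a⁻¹ : GL2) : M2), ← mul_assoc ((a⁻¹ : GL2) : M2),
        ← Units.val_mul, inv_mul_cancel, Units.val_one, one_mul, ← mul_assoc N, hN2, zero_mul,
        mul_zero]
    have e : T' = ((q⁻¹ * (g : GL2) : GL2) : M2) * N * (((q⁻¹ * (g : GL2))⁻¹ : GL2) : M2) := by
      rw [hT', _root_.mul_inv_rev, inv_inv, Units.val_mul, Units.val_mul]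
      simp only [mul_assoc]
    rw [e]; exact this _ 1
  have hconj : ∀ a : GL2, (a : M2) * N * ((a⁻¹ : GL2) : M2) = 0 → N = 0 := fun a h0 => by
    have := congrArg (fun X => ((a⁻¹ : GL2) : M2) * X * (a : M2)) h0
    simpa only [← mul_assoc, ← Units.val_mul, inv_mul_cancel, Units.val_one, one_mul, mul_assoc N,
      mul_one, mul_zero, zero_mul] using this
  have hT0 : T ≠ 0 := fun h0 => hN0 (hconj q⁻¹ (by rwa [inv_inv]))
  have hT'0 : T' ≠ 0 := fun h0 => hN0 (hconj (q⁻¹ * (g : GL2)) (by
    rw [← h0, hT', _root_.mul_inv_rev, inv_inv, Units.val_mul, Units.val_mul]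
    simp only [mul_assoc]))
  have hTv : T *ᵥ ![1, 0] = 0 := by
    rw [hT, ← mulVec_mulVec, hq0, ← mulVec_mulVec, hNv, mulVec_zero]
  have hT'v : T' *ᵥ ![0, 1] = 0 := by
    rw [hT', ← mulVec_mulVec, hq1, hw, ← mulVec_mulVec, ← mulVec_mulVec, ← mulVec_mulVec,
      mulVec_mulVec (M := (((g : GL2)⁻¹ : GL2) : M2)), ← Units.val_mul, inv_mul_cancel,
      Units.val_one, one_mulVec, hNv, mulVec_zero, mulVec_zero]
  have t00 : T 0 0 = 0 := by simpa [mulVec, dotProduct] using congrFun hTv 0
  have t10 : T 1 0 = 0 := by simpa [mulVec, dotProduct] using congrFun hTv 1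
  have t11 : T 1 1 = 0 := by
    have := congrFun (congrFun hT2 1) 1
    simpa [mul_apply, Fin.sum_univ_two, t10] using this
  have t01' : T' 0 1 = 0 := by simpa [mulVec, dotProduct] using congrFun hT'v 0
  have t11' : T' 1 1 = 0 := by simpa [mulVec, dotProduct] using congrFun hT'v 1
  have t00' : T' 0 0 = 0 := by
    have := congrFun (congrFun hT'2 0) 0
    simpa [mul_apply, Fin.sum_univ_two, t01'] using this
  have hpowS : ∀ (x : G) (k : ℕ), ((q⁻¹ * (x : GL2) * q : GL2) : M2) ^ k ∈ S := fun x k =>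
    ⟨x ^ k, by rw [← Units.val_pow_eq_pow_val, SubgroupClass.coe_pow]; congr 1
               rw [show q⁻¹ * (x : GL2) * q = q⁻¹ * (x : GL2) * (q⁻¹)⁻¹ by rw [inv_inv],
                 conj_pow]; simp⟩
  have hUS : ∀ x, upperU x ∈ S := fun x => by
    have e : upperU x = ((q⁻¹ * (u : GL2) * q : GL2) : M2) ^ (x / T 0 1).val := by
      have hb : T 0 1 ≠ 0 := fun hb => hT0 (Matrix.ext fun i j => by
        fin_cases i <;> fin_cases j <;> simp [t00, t10, t11, hb])
      have h1 : ((q⁻¹ * (u : GL2) * q : GL2) : M2) = upperU (T 0 1) := by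
        have h1' : ((q⁻¹ * (u : GL2) * q : GL2) : M2) = 1 + T := by
          rw [hT, hN, mul_sub, mul_one, sub_mul, ← Units.val_mul (q⁻¹) q, inv_mul_cancel,
            Units.val_one, Units.val_mul, Units.val_mul]
          abel
        rw [h1']
        ext i j; fin_cases i <;> fin_cases j <;> simp [upperU, t00, t10, t11]
      have hk : ∀ k : ℕ, upperU (T 0 1) ^ k = upperU ((k : ZMod p) * T 0 1) := fun k => by
        induction k with
        | zero => ext i j; fin_cases i <;> fin_cases j <;> simp [upperU]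
        | succ k ih => rw [pow_succ, ih, upperU_mul]; push_cast; ring_nf
      rw [h1, hk, ZMod.natCast_val, ZMod.cast_id, div_mul_cancel₀ _ hb]
    rw [e]; exact hpowS u _
  have hLS : ∀ x, lowerU x ∈ S := fun x => by
    have e : lowerU x = ((q⁻¹ * ((g * u * g⁻¹ : G) : GL2) * q : GL2) : M2) ^ (x / T' 1 0).val := by
      have hb : T' 1 0 ≠ 0 := fun hb => hT'0 (Matrix.ext fun i j => by
        fin_cases i <;> fin_cases j <;> simp [t00', t01', t11', hb])
      have h1 : ((q⁻¹ * ((g * u * g⁻¹ : G) : GL2) * q : GL2) : M2) = lowerU (T' 1 0) := by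
        have h1' : ((q⁻¹ * ((g * u * g⁻¹ : G) : GL2) * q : GL2) : M2) = 1 + T' := by
          have hu2 : ((u : GL2) : M2) = 1 + N := by rw [hN]; abel
          rw [hT', Subgroup.coe_mul, Subgroup.coe_mul, Subgroup.coe_inv]
          simp only [Units.val_mul, hu2, mul_add, add_mul, mul_one]
          rw [← Units.val_mul (g : GL2), mul_inv_cancel, Units.val_one, mul_one, ← Units.val_mul,
            inv_mul_cancel, Units.val_one]
        rw [h1']
        ext i j; fin_cases i <;> fin_cases j <;> simp [lowerU, t00', t01', t11']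
      have hk : ∀ k : ℕ, lowerU (T' 1 0) ^ k = lowerU ((k : ZMod p) * T' 1 0) := fun k => by
        induction k with
        | zero => ext i j; fin_cases i <;> fin_cases j <;> simp [lowerU]
        | succ k ih => rw [pow_succ, ih, lowerU_mul]; push_cast; ring_nf
      rw [h1, hk, ZMod.natCast_val, ZMod.cast_id, div_mul_cancel₀ _ hb]
    rw [e]; exact hpowS _ _
  refine eq_top_iff.2 fun x _ => ?_
  obtain ⟨y, hy⟩ := h.det_surj (GeneralLinearGroup.det x)
  have hdet : ((q⁻¹ * ((y : GL2)⁻¹ * x) * q : GL2) : M2).det = 1 := by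
    rw [← GeneralLinearGroup.val_det_apply, map_mul, map_mul, map_mul, map_inv, map_inv,
      show GeneralLinearGroup.det (y : GL2) = GeneralLinearGroup.det x from hy, inv_mul_cancel,
      mul_one, inv_mul_cancel, Units.val_one]
  obtain ⟨z, hz⟩ := mem_of_unipotents S hSmul hUS hLS hdet
  have hzy : (z : GL2) = (y : GL2)⁻¹ * x := by
    have := Units.ext hz
    simpa using this
  have : x = ((y * z : G) : GL2) := by rw [Subgroup.coe_mul, hzy, mul_inv_cancel_left]
  rw [this]
  exact SetLike.coe_mem _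

/-- A non-scalar element of square one: its centraliser in `G` cannot be all of `G`. -/
theorem not_central_of_odd (hp2 : p ≠ 2) (h : Hypotheses G) {c : G} (hc : c * c = 1)
    (hcd : detG G c = -1) : ¬ ∀ g : G, g * c = c * g := by
  intro hall
  set C := ((c : GL2) : M2) with hC
  have hd : C.det = -1 := by rw [hC, ← val_detG, hcd]; simp
  have hCC : C * C = 1 := by
    rw [hC, ← Units.val_mul, ← Subgroup.coe_mul, hc]; rfl
  have h2 : (2 : ZMod p) ≠ 0 := by
    intro h2
    have : ((2 : ℕ) : ZMod p) = 0 := by exact_mod_cast h2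
    rw [ZMod.natCast_eq_zero_iff] at this
    exact hp2 ((Nat.prime_dvd_prime_iff_eq Fact.out Nat.prime_two).1 this)
  have hne : 1 + C ≠ 0 := fun h0 => by
    rw [← eq_neg_iff_add_eq_zero, eq_comm, neg_eq_iff_eq_neg] at h0
    rw [h0, det_neg, det_one, Fintype.card_fin, neg_one_sq, mul_one] at hd
    exact h2 (by linear_combination hd)
  obtain ⟨j, hj⟩ : ∃ j, (1 + C) *ᵥ Pi.single j 1 ≠ 0 := by
    by_contra! hall'
    refine hne (Matrix.ext fun i j => ?_)
    have := congrFun (hall' j) i
    rwa [mulVec_single_one] at this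
  set v := (1 + C) *ᵥ Pi.single j 1 with hv
  obtain ⟨g, hg⟩ := h.irred v hj
  set w := ((g : GL2) : M2) *ᵥ v with hw
  have hcomm : ((g : GL2) : M2) * C = C * ((g : GL2) : M2) := by
    rw [hC, ← Units.val_mul, ← Units.val_mul, ← Subgroup.coe_mul, ← Subgroup.coe_mul, hall g]
  have hCv : C *ᵥ v = v := by
    rw [hv, mulVec_mulVec, mul_add, mul_one, hCC, add_comm]
  have hCw : C *ᵥ w = w := by rw [hw, mulVec_mulVec, ← hcomm, ← mulVec_mulVec, hCv]
  -- two fixed vectors of a matrix of determinant `-1` are proportional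
  have e0 := congrFun hCv 0
  have e1 := congrFun hCv 1
  have f0 := congrFun hCw 0
  have f1 := congrFun hCw 1
  simp only [mulVec, dotProduct, Fin.sum_univ_two] at e0 e1 f0 f1
  rw [det_fin_two] at hd
  have hX : (2 : ZMod p) * (v 0 * w 1 - v 1 * w 0) = 0 := by
    linear_combination -(C 1 0 * w 0 + C 1 1 * w 1) * e0 + (C 0 0 * w 0 + C 0 1 * w 1) * e1 -
      v 0 * f1 + v 1 * f0 + (v 0 * w 1 - v 1 * w 0) * hd
  have hX0 := (mul_eq_zero.1 hX).resolve_left h2
  by_cases hv0 : v 0 = 0
  · have hv1 : v 1 ≠ 0 := fun h1 => hj (funext (Fin.forall_fin_two.2 ⟨hv0, h1⟩))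
    refine hg (w 1 / v 1) (funext (Fin.forall_fin_two.2 ⟨?_, ?_⟩))
    · rw [hv0, zero_mul, zero_sub, neg_eq_zero, mul_eq_zero, or_iff_right hv1] at hX0
      simp [hX0, hv0]
    · simp [hv1]
  · refine hg (w 0 / v 0) (funext (Fin.forall_fin_two.2 ⟨?_, ?_⟩))
    · simp [hv0]
    · simp only [Pi.smul_apply, smul_eq_mul]
      field_simp
      linear_combination hX0

/-- An irreducible odd group is not abelian. -/
theorem not_commutative (hp2 : p ≠ 2) (h : Hypotheses G) : ¬ ∀ a b : G, a * b = b * a := by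
  obtain ⟨c, hc, hcd⟩ := h.odd
  exact fun hab => not_central_of_odd hp2 h hc hcd fun g => hab g c

end FermatAgent.RTLift.Finish.Image
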